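import Mathlib
import Fermat.Agent.MUL.Orig.Lib.RR.Basic
import Fermat.Agent.MUL.Lib.BadRed.Mod.UParamW

/-!
# S17 / package H, seat PTS (helper19): the value of a function at a place

Generic part (`IsRRField K F`: every place has residue field `K`).

* `Pts.evHom h P : P.toValuationSubring →ₐ[K] K` — the value map as an algebra homomorphism;
* `Pts.ev P f : K` — the value of `f` at `P` as a TOTAL function (junk value `0` at the poles),
  defined without any hypothesis; all lemmas take `h : IsRRField K F`;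
* `Pts.ev_eq_iff` : for `0 ≤ P.ord f`:  `ev P f = c ↔ f = c ∨ 0 < P.ord (f - c)`;
* ring-homomorphism lemmas `ev_add`, `ev_mul`, `ev_sub`, `ev_neg`, `ev_pow`, `ev_algebraMap`,
  `ev_inv`, `ev_div`, `ev_aeval`, and `ev_eq_zero_iff : ev P f = 0 ↔ 0 < P.ord f` (`f ≠ 0`).
-/

set_option autoImplicit false

noncomputable section

open AlgebraicCurve

namespace Fermat.Agent.S17.Pts

open Fermat.Agent.RR

variable {K F : Type*} [Field K] [Field F] [Algebra K F]

/-- `f` is congruent to the constant `c` at `P` (junk-safe form). -/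
def CongAt (P : Place K F) (f : F) (c : K) : Prop :=
  f = algebraMap K F c ∨ 0 < P.ord (f - algebraMap K F c)

theorem congAt_iff_mem_maximalIdeal (P : Place K F) {f : F} (hf : f ∈ P.toValuationSubring)
    (c : K) :
    CongAt P f c ↔ (⟨f, hf⟩ - algebraMap K P.toValuationSubring c : P.toValuationSubring) ∈
      IsLocalRing.maximalIdeal P.toValuationSubring := by
  set a : P.toValuationSubring := ⟨f, hf⟩ - algebraMap K P.toValuationSubring c with ha
  have hcoe : (a : F) = f - algebraMap K F c := rfl
  rcases eq_or_ne a 0 with h0 | h0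
  · have hz : f - algebraMap K F c = 0 := by rw [← hcoe, h0]; rfl
    constructor
    · intro _
      rw [h0]
      exact zero_mem _
    · intro _
      left
      exact sub_eq_zero.mp hz
  · rw [Fermat.Agent.S24Res.mem_maximalIdeal_iff_ord_pos P h0, hcoe]
    constructor
    · rintro (h | h)
      · exfalso
        apply h0
        apply Subtype.ext
        rw [hcoe, h, sub_self]
        rfl
      · exact h
    · intro h
      exact Or.inr h

theorem CongAt.ord_nonneg {P : Place K F} {f : F} {c : K} (h : CongAt P f c) : 0 ≤ P.ord f := by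
  rcases h with h | h
  · rw [h, Fermat.Agent.S24Res.ord_algebraMap]
  · have h1 : f - algebraMap K F c ∈ P.toValuationSubring :=
      Fermat.Agent.S24Res.mem_of_ord_nonneg P h.le
    have h2 := add_mem h1 (P.algebraMap_mem' c)
    rw [sub_add_cancel] at h2
    exact Fermat.Agent.S24Res.ord_nonneg_of_mem P h2

theorem CongAt.mem {P : Place K F} {f : F} {c : K} (h : CongAt P f c) :
    f ∈ P.toValuationSubring :=
  Fermat.Agent.S24Res.mem_of_ord_nonneg P h.ord_nonneg

/-- the residue class of `f` is the class of `c`. -/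
theorem congAt_iff_residue (P : Place K F) {f : F} (hf : f ∈ P.toValuationSubring) (c : K) :
    CongAt P f c ↔ IsLocalRing.residue P.toValuationSubring ⟨f, hf⟩ =
      algebraMap K P.ResidueField c := by
  rw [congAt_iff_mem_maximalIdeal P hf, ← IsLocalRing.residue_eq_zero_iff, map_sub, sub_eq_zero]
  rfl

theorem CongAt.unique {P : Place K F} {f : F} {c c' : K} (h : CongAt P f c)
    (h' : CongAt P f c') : c = c' := by
  have hf := h.mem
  rw [congAt_iff_residue P hf] at h h'
  exact (algebraMap K P.ResidueField).injective (h.symm.trans h')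

/-- **the value of `f` at `P`** (junk value `0` if `f` has a pole at `P`). -/
def ev (P : Place K F) (f : F) : K :=
  open Classical in if h : ∃ c : K, CongAt P f c then h.choose else 0

theorem ev_eq_of_congAt {P : Place K F} {f : F} {c : K} (h : CongAt P f c) : ev P f = c := by
  have hex : ∃ c : K, CongAt P f c := ⟨c, h⟩
  unfold ev
  rw [dif_pos hex]
  exact hex.choose_spec.unique h

theorem ev_of_ord_neg {P : Place K F} {f : F} (h : P.ord f < 0) : ev P f = 0 := by
  unfold ev
  rw [dif_neg]
  rintro ⟨c, hc⟩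
  have := hc.ord_nonneg
  omega

@[simp]
theorem ev_algebraMap (P : Place K F) (c : K) : ev P (algebraMap K F c) = c :=
  ev_eq_of_congAt (Or.inl rfl)

@[simp]
theorem ev_zero (P : Place K F) : ev P (0 : F) = 0 := by
  have := ev_algebraMap P (0 : K)
  rwa [map_zero] at this

@[simp]
theorem ev_one (P : Place K F) : ev P (1 : F) = 1 := by
  have := ev_algebraMap P (1 : K)
  rwa [map_one] at this

section RR

variable (h : IsRRField K F)
include h

theorem congAt_ev (P : Place K F) {f : F} (hf : 0 ≤ P.ord f) : CongAt P f (ev P f) := by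
  obtain ⟨c, hc⟩ := exists_const_sub h P hf
  have hc' : CongAt P f c := hc
  rw [ev_eq_of_congAt hc']
  exact hc'

/-- characterisation of the value. -/
theorem ev_eq_iff (P : Place K F) {f : F} (hf : 0 ≤ P.ord f) (c : K) :
    ev P f = c ↔ (f = algebraMap K F c ∨ 0 < P.ord (f - algebraMap K F c)) := by
  constructor
  · rintro rfl
    exact congAt_ev h P hf
  · intro hc
    exact ev_eq_of_congAt hc

theorem residue_eq_algebraMap_ev (P : Place K F) {f : F} (hf : f ∈ P.toValuationSubring) :
    IsLocalRing.residue P.toValuationSubring ⟨f, hf⟩ = algebraMap K P.ResidueField (ev P f) :=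
  (congAt_iff_residue P hf _).mp (congAt_ev h P (Fermat.Agent.S24Res.ord_nonneg_of_mem P hf))

theorem ev_add (P : Place K F) {f g : F} (hf : 0 ≤ P.ord f) (hg : 0 ≤ P.ord g) :
    ev P (f + g) = ev P f + ev P g := by
  have hfm := Fermat.Agent.S24Res.mem_of_ord_nonneg P hf
  have hgm := Fermat.Agent.S24Res.mem_of_ord_nonneg P hg
  apply ev_eq_of_congAt
  rw [congAt_iff_residue P (add_mem hfm hgm), map_add, ← residue_eq_algebraMap_ev h P hfm,
    ← residue_eq_algebraMap_ev h P hgm, ← map_add]
  rfl

theorem ev_mul (P : Place K F) {f g : F} (hf : 0 ≤ P.ord f) (hg : 0 ≤ P.ord g) :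
    ev P (f * g) = ev P f * ev P g := by
  have hfm := Fermat.Agent.S24Res.mem_of_ord_nonneg P hf
  have hgm := Fermat.Agent.S24Res.mem_of_ord_nonneg P hg
  apply ev_eq_of_congAt
  rw [congAt_iff_residue P (mul_mem hfm hgm), map_mul, ← residue_eq_algebraMap_ev h P hfm,
    ← residue_eq_algebraMap_ev h P hgm, ← map_mul]
  rfl

theorem ev_neg (P : Place K F) {f : F} (hf : 0 ≤ P.ord f) : ev P (-f) = -ev P f := by
  have hfm := Fermat.Agent.S24Res.mem_of_ord_nonneg P hf
  apply ev_eq_of_congAt
  rw [congAt_iff_residue P (neg_mem hfm), map_neg, ← residue_eq_algebraMap_ev h P hfm, ← map_neg]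
  rfl

theorem ev_sub (P : Place K F) {f g : F} (hf : 0 ≤ P.ord f) (hg : 0 ≤ P.ord g) :
    ev P (f - g) = ev P f - ev P g := by
  have hfm := Fermat.Agent.S24Res.mem_of_ord_nonneg P hf
  have hgm := Fermat.Agent.S24Res.mem_of_ord_nonneg P hg
  apply ev_eq_of_congAt
  rw [congAt_iff_residue P (sub_mem hfm hgm), map_sub, ← residue_eq_algebraMap_ev h P hfm,
    ← residue_eq_algebraMap_ev h P hgm, ← map_sub]
  rfl

theorem ev_pow (P : Place K F) {f : F} (hf : 0 ≤ P.ord f) (n : ℕ) :
    ev P (f ^ n) = ev P f ^ n := by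
  have hfm := Fermat.Agent.S24Res.mem_of_ord_nonneg P hf
  apply ev_eq_of_congAt
  rw [congAt_iff_residue P (pow_mem hfm n), map_pow, ← residue_eq_algebraMap_ev h P hfm,
    ← map_pow]
  rfl

theorem ev_smul_const (P : Place K F) (c : K) {f : F} (hf : 0 ≤ P.ord f) :
    ev P (c • f) = c * ev P f := by
  rw [Algebra.smul_def, ev_mul h P (by rw [Fermat.Agent.S24Res.ord_algebraMap]) hf,
    ev_algebraMap]

/-- the value vanishes exactly at the zeros. -/
theorem ev_eq_zero_iff (P : Place K F) {f : F} (hf0 : f ≠ 0) (hf : 0 ≤ P.ord f) :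
    ev P f = 0 ↔ 0 < P.ord f := by
  rw [ev_eq_iff h P hf, map_zero, sub_zero]
  constructor
  · rintro (h0 | h0)
    · exact absurd h0 hf0
    · exact h0
  · intro h0
    exact Or.inr h0

theorem ev_ne_zero_of_ord_eq_zero (P : Place K F) {f : F} (hf0 : f ≠ 0) (hf : P.ord f = 0) :
    ev P f ≠ 0 := by
  intro h0
  have := (ev_eq_zero_iff h P hf0 hf.ge).mp h0
  omega

theorem ev_inv (P : Place K F) {f : F} (hf : P.ord f = 0) : ev P f⁻¹ = (ev P f)⁻¹ := by
  rcases eq_or_ne f 0 with rfl | hf0
  · rw [inv_zero, ev_zero, inv_zero]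
  have hinv : P.ord f⁻¹ = 0 := by rw [P.ord_inv, hf, neg_zero]
  have h1 : ev P f * ev P f⁻¹ = 1 := by
    rw [← ev_mul h P hf.ge hinv.ge, mul_inv_cancel₀ hf0, ev_one]
  exact eq_inv_of_mul_eq_one_right h1

theorem ev_div (P : Place K F) {f g : F} (hf : 0 ≤ P.ord f) (hg : P.ord g = 0) :
    ev P (f / g) = ev P f / ev P g := by
  have hinv : P.ord g⁻¹ = 0 := by rw [P.ord_inv, hg, neg_zero]
  rw [div_eq_mul_inv, ev_mul h P hf hinv.ge, ev_inv h P hg, div_eq_mul_inv]

/-- the value map as an algebra homomorphism on the valuation ring. -/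
def evHom (P : Place K F) : P.toValuationSubring →ₐ[K] K where
  toFun f := ev P (f : F)
  map_one' := ev_one P
  map_mul' f g := ev_mul h P (Fermat.Agent.S24Res.ord_nonneg_of_mem P f.2)
    (Fermat.Agent.S24Res.ord_nonneg_of_mem P g.2)
  map_zero' := ev_zero P
  map_add' f g := ev_add h P (Fermat.Agent.S24Res.ord_nonneg_of_mem P f.2)
    (Fermat.Agent.S24Res.ord_nonneg_of_mem P g.2)
  commutes' c := ev_algebraMap P c

@[simp]
theorem evHom_apply (P : Place K F) (f : P.toValuationSubring) : evHom h P f = ev P (f : F) :=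
  rfl

theorem evHom_surjective (P : Place K F) : Function.Surjective (evHom h P) := fun c =>
  ⟨algebraMap K P.toValuationSubring c, ev_algebraMap P c⟩

theorem ker_evHom (P : Place K F) :
    RingHom.ker (evHom h P).toRingHom = IsLocalRing.maximalIdeal P.toValuationSubring := by
  ext f
  rw [RingHom.mem_ker]
  show ev P (f : F) = 0 ↔ _
  rw [ev_eq_iff h P (Fermat.Agent.S24Res.ord_nonneg_of_mem P f.2)]
  have h1 := congAt_iff_mem_maximalIdeal P f.2 (0 : K)
  rw [map_zero, sub_zero] at h1
  exact h1

/-- values of polynomials. -/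
theorem ev_aeval (P : Place K F) {f : F} (hf : 0 ≤ P.ord f) (p : Polynomial K) :
    ev P (Polynomial.aeval f p) = p.eval (ev P f) := by
  have hfm := Fermat.Agent.S24Res.mem_of_ord_nonneg P hf
  have h1 : Polynomial.aeval f p =
      ((Polynomial.aeval (⟨f, hfm⟩ : P.toValuationSubring) p : P.toValuationSubring) : F) := by
    have := Polynomial.aeval_algHom_apply (IsScalarTower.toAlgHom K P.toValuationSubring F)
      (⟨f, hfm⟩ : P.toValuationSubring) p
    exact this
  rw [h1, ← evHom_apply h, ← Polynomial.aeval_algHom_apply, Polynomial.aeval_def,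
    Polynomial.eval₂_eq_eval_map]
  simp

omit h in
/-- `ord` of a polynomial expression is nonnegative. -/
theorem ord_aeval_nonneg (P : Place K F) {f : F} (hf : 0 ≤ P.ord f) (p : Polynomial K) :
    0 ≤ P.ord (Polynomial.aeval f p) := by
  have hfm := Fermat.Agent.S24Res.mem_of_ord_nonneg P hf
  apply Fermat.Agent.S24Res.ord_nonneg_of_mem
  induction p using Polynomial.induction_on' with
  | add p q hp hq =>
    rw [map_add]
    exact add_mem hp hq
  | monomial n a =>
    rw [Polynomial.aeval_monomial]
    exact mul_mem (P.algebraMap_mem' a) (pow_mem hfm n)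

end RR

end Fermat.Agent.S17.Pts
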